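import Fermat.Agent.WeilNF.Place
import Fermat.Agent.IsogenyNF.OrderCount

/-!
# The determinant at every level is the cyclotomic character, for every curve

Take a Frobenius place at the level `N²`, let `M` be the matrix of `σ` there, `x = tr M - t`, and
`g` the greatest common divisor of `N`, the entries off the diagonal and their difference on it. By
Cayley and Hamilton `x g ≡ 0` modulo `N²` up to multiples of `x N`; on the points killed by `g` the
automorphism is a scalar, so the count of kernels gives `g ∣ x`. Hence `N ∣ x` and `det M ≡ q`.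
-/

set_option autoImplicit false
set_option linter.unusedSectionVars false

noncomputable section

namespace FA.WeilNF

open WeierstrassCurve Matrix FA.IsogenyNF
open scoped WeierstrassCurve.Affine

universe u v

/-- A divisor `g` of `x` with `x g ∈ (N², x N)` and `g ∣ N` makes `N` divide `x`. -/
theorem dvd_of_gcd_rel {N g x k m : ℤ} (hg : g ∣ N) (hg0 : g ≠ 0) (hx : g ∣ x)
    (h : x * g = N ^ 2 * m + x * N * k) : N ∣ x := by
  obtain ⟨a, rfl⟩ := hg
  obtain ⟨y, rfl⟩ := hx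
  have h' : y = a ^ 2 * m + y * a * k := mul_left_cancel₀ (pow_ne_zero 2 hg0)
    (by linear_combination h)
  exact mul_dvd_mul_left g ⟨a * m + y * k, by linear_combination h'⟩

/-- Two values of `c² - t c + q` divisible by `g²` pin down `t` modulo `g`. -/
theorem dvd_trace_sub {l : ℤ} (hl : Prime l) {g t q a : ℤ} (hlg : ¬ l ∣ g) (hg0 : g ≠ 0)
    (h : ∀ c : ℤ, g ∣ c - a → ¬ l ∣ c → g ^ 2 ∣ c ^ 2 - t * c + q) : g ∣ 2 * a - t := by
  obtain ⟨c, hca, hlc⟩ : ∃ c : ℤ, g ∣ c - a ∧ ¬ l ∣ c := by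
    by_cases ha : l ∣ a
    · exact ⟨a + g, by simp, fun hc => hlg ((dvd_add_right ha).1 hc)⟩
    · exact ⟨a, by simp, ha⟩
  have h2 := dvd_sub (h (c + l * g) (by
      rw [show c + l * g - a = c - a + l * g by ring]
      exact dvd_add hca (dvd_mul_left g l))
    fun hc => hlc ((dvd_add_left (dvd_mul_right l g)).1 hc)) (h c hca hlc)
  obtain ⟨e, he⟩ := h2
  have h3 : g ∣ l * (2 * c - t) :=
    ⟨e - l ^ 2, mul_left_cancel₀ hg0 (by linear_combination he)⟩
  obtain ⟨u, v, huv⟩ := (hl.coprime_iff_not_dvd.2 hlg).symm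
  have h4 : g ∣ 2 * c - t := by
    rw [show 2 * c - t = (u * g + v * l) * (2 * c - t) by rw [huv, one_mul],
      show (u * g + v * l) * (2 * c - t) = g * (u * (2 * c - t)) + v * (l * (2 * c - t)) by ring]
    exact dvd_add (dvd_mul_right _ _) (h3.mul_left v)
  rw [show 2 * a - t = (2 * c - t) - 2 * (c - a) by ring]
  exact dvd_sub h4 (hca.mul_left 2)

variable {K : Type u} [Field K] [NumberField K] {Kb : Type v} [Field Kb] [DecidableEq Kb]
  [Algebra K Kb] [CharZero Kb] [IsAlgClosed Kb] [Algebra.IsAlgebraic K Kb]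
  {E : WeierstrassCurve K} [E.IsElliptic]

/-- Generators at a level lift to generators at its square. -/
theorem exists_lift_square {N : ℕ} (hN : N ≠ 0) {P Q : (E.toAffine⁄Kb).Point}
    (h : TorGen E N P Q) :
    ∃ P' Q' : (E.toAffine⁄Kb).Point, TorGen E (N * N) P' Q' ∧ N • P' = P ∧ N • Q' = Q := by
  obtain ⟨P₁, Q₁, h₁⟩ := exists_torGen_level (E := E) (Kb := Kb) (mul_ne_zero hN hN)
  have hdiv : ∀ R : (E.toAffine⁄Kb).Point, N • R = 0 → ∃ S, N • S = R ∧ (N * N) • S = 0 :=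
    fun R hR => by
      have hR' : (N * N) • R = 0 := by rw [mul_nsmul', hR, nsmul_zero]
      obtain ⟨i, j, e⟩ := h₁.span R hR'
      have hz : h₁.coord ![((((N : ℤ) * i : ℤ)) : ZMod (N * N)),
          ((((N : ℤ) * j : ℤ)) : ZMod (N * N))] = h₁.coord 0 := by
        rw [h₁.coord_intCast, map_zero, mul_zsmul, mul_zsmul, ← zsmul_add, ← e, natCast_zsmul, hR]
      have hz' := h₁.coord_injective (mul_ne_zero hN hN) hz
      have hN' : (N : ℤ) ≠ 0 := Nat.cast_ne_zero.2 hN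
      have hdvd : ∀ s : ℤ, ((((N : ℤ) * s : ℤ)) : ZMod (N * N)) = 0 → (N : ℤ) ∣ s := fun s hs => by
        rw [ZMod.intCast_zmod_eq_zero_iff_dvd, Nat.cast_mul] at hs
        exact Int.dvd_of_mul_dvd_mul_left hN' hs
      obtain ⟨i', hi⟩ := hdvd i (congrFun hz' 0)
      obtain ⟨j', hj⟩ := hdvd j (congrFun hz' 1)
      refine ⟨i' • P₁ + j' • Q₁, ?_, ?_⟩
      · rw [e, ← natCast_zsmul, zsmul_add, ← mul_zsmul, ← mul_zsmul, hi, hj]
      · rw [nsmul_add, smul_comm (N * N) i', smul_comm (N * N) j', h₁.left, h₁.right, zsmul_zero,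
          zsmul_zero, add_zero]
  obtain ⟨P', hP, hP'⟩ := hdiv P h.left
  obtain ⟨Q', hQ, hQ'⟩ := hdiv Q h.right
  refine ⟨P', Q', ⟨hP', hQ', fun R hR => ?_⟩, hP, hQ⟩
  obtain ⟨i, j, e⟩ := h.span (N • R) (by rw [← mul_nsmul', hR])
  obtain ⟨i', j', e'⟩ := h.span (R - (i • P' + j • Q')) (by
    rw [nsmul_sub, e, nsmul_add, smul_comm N i, smul_comm N j, hP, hQ, sub_self])
  refine ⟨i + i' * N, j + j' * N, ?_⟩
  rw [sub_eq_iff_eq_add, ← hP, ← hQ] at e'
  rw [e', add_zsmul, add_zsmul, mul_zsmul, mul_zsmul, natCast_zsmul, natCast_zsmul]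
  abel

/-- The matrix at a level is the reduction of the matrix at the square. -/
theorem rep_reduce {N : ℕ} (hN : N ≠ 0) {P' Q' : (E.toAffine⁄Kb).Point}
    (h' : TorGen E (N * N) P' Q') (h : TorGen E N (N • P') (N • Q')) (σ : Kb ≃ₐ[K] Kb) :
    h.rep hN σ = (ZMod.castHom (dvd_mul_right N N) (ZMod N)).mapMatrix
      (h'.rep (mul_ne_zero hN hN) σ) := by
  set π := ZMod.castHom (dvd_mul_right N N) (ZMod N)
  have hred : ∀ w : Fin 2 → ZMod (N * N), N • h'.coord w = h.coord (π ∘ w) := fun w => by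
    obtain ⟨i, hi⟩ := ZMod.intCast_surjective (w 0)
    obtain ⟨j, hj⟩ := ZMod.intCast_surjective (w 1)
    have hw : w = ![(i : ZMod (N * N)), (j : ZMod (N * N))] :=
      funext fun s => by fin_cases s <;> simp [hi, hj]
    have hw' : π ∘ w = ![(i : ZMod N), (j : ZMod N)] :=
      funext fun s => by fin_cases s <;> simp [hw, π]
    rw [hw', h.coord_intCast, hw, h'.coord_intCast, nsmul_add, smul_comm N, smul_comm N]
  refine Matrix.ext_of_mulVec_single fun i => h.coord_injective hN ?_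
  have hsingle : (Pi.single i 1 : Fin 2 → ZMod N) = π ∘ Pi.single i 1 := funext fun j => by
    rw [Function.comp_apply, Pi.single_apply, Pi.single_apply, apply_ite π, map_one, map_zero]
  rw [← h.rep_spec, hsingle, ← hred, smul_nsmul', h'.rep_spec (mul_ne_zero hN hN), hred]
  exact congrArg h.coord (funext fun j => RingHom.map_mulVec π _ _ j)

/-- **The determinant at every level is the cyclotomic character**, for every curve. -/
theorem det_rep {N : ℕ} (hN : N ≠ 0) {P Q : (E.toAffine⁄Kb).Point} (h : TorGen E N P Q)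
    {σ : Kb ≃ₐ[K] Kb} {a : ℕ} (ha : ∀ μ : Kb, μ ^ N = 1 → σ μ = μ ^ a) :
    (h.rep hN σ).det = (a : ZMod N) := by
  obtain ⟨P', Q', h', rfl, rfl⟩ := exists_lift_square hN h
  have hM : N * N ≠ 0 := mul_ne_zero hN hN
  obtain ⟨F⟩ := exists_frobPlace E σ hM
  obtain ⟨t, hquad, hcount⟩ := exists_trace F
  set q : ℤ := (F.l : ℤ) ^ F.n with hq
  set R := h'.rep hM σ with hR
  have hrel : R * R - (t : ZMod (N * N)) • R + (q : ZMod (N * N)) • 1 = 0 := by
    refine Matrix.ext_of_mulVec_single fun i => h'.coord_injective hM ?_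
    set w : Fin 2 → ZMod (N * N) := Pi.single i 1
    have hz : ∀ (s : ℤ) (u : Fin 2 → ZMod (N * N)),
        h'.coord ((s : ZMod (N * N)) • u) = s • h'.coord u := fun s u => by
      rw [Int.cast_smul_eq_zsmul, map_zsmul]
    rw [zero_mulVec, map_zero, add_mulVec, sub_mulVec, ← mulVec_mulVec, smul_mulVec,
      smul_mulVec, one_mulVec, map_add, map_sub, hz, hz, ← h'.rep_spec, ← h'.rep_spec]
    exact hquad _ (h'.nsmul_coord w)
  obtain ⟨α, hα⟩ := ZMod.intCast_surjective (R 0 0)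
  obtain ⟨β, hβ⟩ := ZMod.intCast_surjective (R 0 1)
  obtain ⟨γ, hγ⟩ := ZMod.intCast_surjective (R 1 0)
  obtain ⟨δ, hδ⟩ := ZMod.intCast_surjective (R 1 1)
  have e00 := congrFun (congrFun hrel 0) 0
  have e01 := congrFun (congrFun hrel 0) 1
  have e10 := congrFun (congrFun hrel 1) 0
  have e11 := congrFun (congrFun hrel 1) 1
  simp [Matrix.mul_apply, Fin.sum_univ_two, ← hα, ← hβ, ← hγ, ← hδ] at e00 e01 e10 e11
  set g : ℕ := Int.gcd (Int.gcd β γ : ℤ) (Int.gcd (α - δ) N : ℤ) with hgdef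
  have hgβ : (g : ℤ) ∣ β := (Int.gcd_dvd_left _ _).trans (Int.gcd_dvd_left _ _)
  have hgγ : (g : ℤ) ∣ γ := (Int.gcd_dvd_left _ _).trans (Int.gcd_dvd_right _ _)
  have hgd : (g : ℤ) ∣ α - δ := (Int.gcd_dvd_right _ _).trans (Int.gcd_dvd_left _ _)
  have hgN : (g : ℤ) ∣ N := (Int.gcd_dvd_right _ _).trans (Int.gcd_dvd_right _ _)
  have hgN' : g ∣ N := Int.natCast_dvd_natCast.1 hgN
  have hg0 : g ≠ 0 := fun e => hN (Nat.eq_zero_of_zero_dvd (e ▸ hgN'))
  have hgM : g ∣ N * N := hgN'.mul_right N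
  -- `σ` is the scalar `c` on the points killed by `g`
  have hscal : ∀ c : ℤ, (g : ℤ) ∣ c - α → ∀ X : (E.toAffine⁄Kb).Point, g • X = 0 →
      σ • X = c • X := by
    intro c hc X hX
    have hX' : (N * N) • X = 0 := by
      obtain ⟨d, hd⟩ := hgM
      rw [hd, mul_comm, mul_nsmul', hX, nsmul_zero]
    obtain ⟨w, rfl⟩ := h'.coord_surj hX'
    have hw : g • w = 0 := h'.coord_injective hM (by rw [map_nsmul, hX, map_zero])
    rw [h'.rep_spec hM, ← map_zsmul]
    refine congrArg h'.coord (funext fun i => ?_)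
    have hgw : ∀ (s : ℤ) (j : Fin 2), (g : ℤ) ∣ s → (s : ZMod (N * N)) * w j = 0 := fun s j hs => by
      obtain ⟨s', rfl⟩ := hs
      have := congrFun hw j
      rw [Pi.smul_apply, Pi.zero_apply, nsmul_eq_mul] at this
      rw [Int.cast_mul, Int.cast_natCast, mul_right_comm, this, zero_mul]
    rw [Pi.smul_apply, zsmul_eq_mul, mulVec, dotProduct, Fin.sum_univ_two]
    fin_cases i
    · simp only [Fin.zero_eta, ← hR, ← hα, ← hβ, hgw β 1 hgβ, add_zero]
      have := hgw (c - α) 0 hc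
      rw [Int.cast_sub] at this
      linear_combination -this
    · simp only [Fin.mk_one, ← hR, ← hγ, ← hδ, hgw γ 0 hgγ, zero_add]
      have := hgw (c - δ) 1 (by
        rw [show c - δ = (c - α) + (α - δ) by ring]; exact dvd_add hc hgd)
      rw [Int.cast_sub] at this
      linear_combination -this
  have hlg : ¬ (F.l : ℤ) ∣ g := fun hd => by
    have := F.charP
    have h1 := F.level_of_dvd ((Int.natCast_dvd_natCast.1 hd).trans hgM)
    have h0 : ((F.l : ℕ) : FA.Frob.Res F.A) = 0 := CharP.cast_eq_zero _ _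
    rw [← map_natCast (IsLocalRing.residue F.A), IsLocalRing.residue_eq_zero_iff] at h0
    exact (IsLocalRing.mem_maximalIdeal _).1 h0
      ((F.A.valuation_eq_one_iff _).2 (by simpa using h1))
  have htr : (g : ℤ) ∣ 2 * α - t := dvd_trace_sub (Nat.prime_iff_prime_int.1 F.prime) hlg
    (Nat.cast_ne_zero.2 hg0) (q := q) fun c hc hlc => hcount c g hg0 hgM hlc (hscal c hc)
  set x := α + δ - t with hx
  have hgx : (g : ℤ) ∣ x := by
    rw [show x = (2 * α - t) - (α - δ) by ring]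
    exact dvd_sub htr hgd
  have hxe : ∀ s : ℤ, ((x * s : ℤ) : ZMod (N * N)) = 0 → (N : ℤ) ^ 2 ∣ x * s := fun s hs => by
    rw [ZMod.intCast_zmod_eq_zero_iff_dvd, Nat.cast_mul, ← sq] at hs
    exact hs
  obtain ⟨mb, hb⟩ := hxe β (by push_cast [hx]; linear_combination e01)
  obtain ⟨mc, hc⟩ := hxe γ (by push_cast [hx]; linear_combination e10)
  obtain ⟨md, hd⟩ := hxe (α - δ) (by push_cast [hx]; linear_combination e00 - e11)
  obtain ⟨m, k, hmk⟩ : ∃ m k : ℤ, x * g = (N : ℤ) ^ 2 * m + x * N * k := by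
    have h1 := Int.gcd_eq_gcd_ab β γ
    have h2 := Int.gcd_eq_gcd_ab (α - δ) N
    have h3 := Int.gcd_eq_gcd_ab (Int.gcd β γ : ℤ) (Int.gcd (α - δ) N : ℤ)
    rw [← hgdef] at h3
    set u := Int.gcdA (Int.gcd β γ : ℤ) (Int.gcd (α - δ) N : ℤ)
    set v := Int.gcdB (Int.gcd β γ : ℤ) (Int.gcd (α - δ) N : ℤ)
    rw [h1, h2] at h3
    exact ⟨(mb * Int.gcdA β γ + mc * Int.gcdB β γ) * u + md * Int.gcdA (α - δ) N * v,
      Int.gcdB (α - δ) N * v, by
      rw [h3]
      linear_combination (Int.gcdA β γ * u) * hb + (Int.gcdB β γ * u) * hc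
        + (Int.gcdA (α - δ) N * v) * hd⟩
  have hNx : (N : ℤ) ∣ x := dvd_of_gcd_rel hgN (Nat.cast_ne_zero.2 hg0) hgx hmk
  -- the determinant
  have hdet : R.det = (q : ZMod (N * N)) + (α : ZMod (N * N)) * (x : ZMod (N * N)) := by
    rw [det_fin_two, ← hα, ← hβ, ← hγ, ← hδ, hx]
    push_cast
    linear_combination -e00
  rw [rep_reduce hN h' h, ← RingHom.map_det, ← hR, hdet, map_add, map_mul, map_intCast,
    map_intCast, map_intCast, (ZMod.intCast_zmod_eq_zero_iff_dvd x N).2 hNx, mul_zero, add_zero]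
  -- the value on the roots of unity
  have : NeZero (N : Kb) := ⟨Nat.cast_ne_zero.2 hN⟩
  obtain ⟨μ, hμ⟩ := HasEnoughRootsOfUnity.exists_primitiveRoot Kb N
  have e := F.congr_root μ (by rw [pow_mul, hμ.pow_eq_one, one_pow])
  rw [ha μ hμ.pow_eq_one, (hμ.isOfFinOrder hN).pow_eq_pow_iff_modEq, ← hμ.eq_orderOf] at e
  rw [(ZMod.natCast_eq_natCast_iff ..).2 e, hq]
  push_cast
  rfl

/-- **An automorphism fixing the points killed by `N` fixes the `N`-th roots of unity.** -/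
theorem root_fixed {N : ℕ} (hN : N ≠ 0) {σ : Kb ≃ₐ[K] Kb}
    (hσ : ∀ R : (E.toAffine⁄Kb).Point, N • R = 0 → σ • R = R) {μ : Kb} (hμ : μ ^ N = 1) :
    σ μ = μ := by
  obtain ⟨P, Q, h⟩ := exists_torGen_level (E := E) (Kb := Kb) hN
  have : NeZero N := ⟨hN⟩
  have : NeZero (N : Kb) := ⟨Nat.cast_ne_zero.2 hN⟩
  obtain ⟨ζ, hζ⟩ := HasEnoughRootsOfUnity.exists_primitiveRoot Kb N
  obtain ⟨a, -, ha⟩ := hζ.eq_pow_of_pow_eq_one (ξ := σ ζ)
    (by rw [← map_pow, hζ.pow_eq_one, map_one])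
  have hall : ∀ ν : Kb, ν ^ N = 1 → σ ν = ν ^ a := fun ν hν => by
    obtain ⟨i, -, rfl⟩ := hζ.eq_pow_of_pow_eq_one hν
    rw [map_pow, ← ha, ← pow_mul, ← pow_mul, mul_comm]
  have h1 := det_rep hN h hall
  rw [show h.rep hN σ = 1 from Matrix.ext_of_mulVec_single fun i => h.coord_injective hN (by
    rw [← h.rep_spec, one_mulVec, hσ _ (h.nsmul_coord _)]), det_one] at h1
  rw [hall μ hμ]
  conv_rhs => rw [← pow_one μ]
  refine pow_eq_pow_of_modEq ?_ hμ
  exact (ZMod.natCast_eq_natCast_iff ..).1 (by rw [← h1, Nat.cast_one])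

end FA.WeilNF

end
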