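import Fermat.Agent.WeilNF.Det
import Fermat.Agent.ReducedGroups.Structure
import Mathlib.RingTheory.Polynomial.Cyclotomic.Roots

/-!
# Full level over a number field

A square `(ℤ/N)²` among the points over `K` is all the points killed by `N`, so every automorphism
fixes the `N`-th roots of unity, and these lie in `K`: `φ(N) ∣ [K : ℚ]`, and `N ≤ 2` where the
degree is odd or some place is real.
-/

set_option autoImplicit false
set_option linter.unusedSectionVars false

noncomputable section

namespace FA.WeilNF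

open WeierstrassCurve FA.IsogenyNF
open scoped WeierstrassCurve.Affine Classical

universe u

variable {K : Type u} [Field K] [NumberField K] (E : WeierstrassCurve K) [E.IsElliptic]

local notation "Kc" => AlgebraicClosure K

/-- A point over `K` as a point over the closure. -/
def upK : E.toAffine.Point →+ (E.toAffine⁄Kc).Point :=
  Affine.Point.map (W' := E.toAffine) (S := K) (F := K) (Algebra.ofId K Kc)

theorem upK_injective : Function.Injective (upK E) :=
  Affine.Point.map_injective (W' := E.toAffine) _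

theorem smul_upK (σ : Kc ≃ₐ[K] Kc) (P : E.toAffine.Point) : σ • upK E P = upK E P := by
  rcases P with _ | ⟨x, y, h⟩
  · rw [← Affine.Point.zero_def, map_zero]
    rfl
  obtain ⟨h', e⟩ : ∃ h', upK E (.some x y h) =
      .some (algebraMap K Kc x) (algebraMap K Kc y) h' := ⟨_, rfl⟩
  rw [e]
  obtain ⟨h'', e'⟩ := FA.Local.smul_some (σ := σ) E h'
  rw [e']
  exact (Affine.Point.some.injEq ..).mpr ⟨σ.commutes x, σ.commutes y⟩

/-- **A square among the points over `K` makes every automorphism fix `E[N]`.** -/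
theorem fixed_of_injective {N : ℕ} [NeZero N] (φ : ZMod N × ZMod N →+ E.toAffine.Point)
    (hφ : Function.Injective φ) (σ : Kc ≃ₐ[K] Kc) (Q : (E.toAffine⁄Kc).Point)
    (hQ : N • Q = 0) : σ • Q = Q := by
  have hinj : Function.Injective ((upK E).comp φ) := (upK_injective E).comp hφ
  have hsub : Set.range ((upK E).comp φ) ⊆ {Q : (E.toAffine⁄Kc).Point | N • Q = 0} := by
    rintro _ ⟨z, rfl⟩
    show N • ((upK E).comp φ) z = 0
    rw [← map_nsmul, show N • z = 0 from Prod.ext (by simp) (by simp), map_zero]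
  have heq := Set.eq_of_subset_of_ncard_le hsub (by
    rw [← Nat.card_coe_set_eq {Q : (E.toAffine⁄Kc).Point | N • Q = 0},
      Set.ncard_range_of_injective hinj, Nat.card_prod, Nat.card_zmod, ← sq]
    exact (TorGen.natCard (E := E) (Kb := Kc) (NeZero.ne N)).le)
    (finite_nsmul_eq_zero (W := E) (Kb := Kc) (NeZero.ne N))
  obtain ⟨z, rfl⟩ := heq.ge hQ
  exact smul_upK E σ (φ z)

/-- **Full level puts a primitive root of unity in `K`.** -/
theorem exists_primitive {N : ℕ} [NeZero N] (φ : ZMod N × ZMod N →+ E.toAffine.Point)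
    (hφ : Function.Injective φ) : ∃ ζ : K, IsPrimitiveRoot ζ N := by
  have : NeZero (N : Kc) := ⟨Nat.cast_ne_zero.2 (NeZero.ne N)⟩
  obtain ⟨μ, hμ⟩ := HasEnoughRootsOfUnity.exists_primitiveRoot Kc N
  have : IsGalois K Kc := IsAlgClosure.isGalois K Kc
  obtain ⟨ζ, rfl⟩ := (InfiniteGalois.mem_range_algebraMap_iff_fixed μ).2 fun σ =>
    root_fixed (E := E) (NeZero.ne N) (fixed_of_injective E φ hφ σ) hμ.pow_eq_one
  exact ⟨ζ, hμ.of_map_of_injective (algebraMap K Kc).injective⟩

/-- **`φ(N)` divides the degree** where there is a primitive `N`-th root of unity. -/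
theorem totient_dvd_finrank {N : ℕ} [NeZero N] {ζ : K} (hζ : IsPrimitiveRoot ζ N) :
    N.totient ∣ Module.finrank ℚ K := by
  rw [← Polynomial.natDegree_cyclotomic N ℚ, Polynomial.cyclotomic_eq_minpoly_rat hζ
    (Nat.pos_of_ne_zero (NeZero.ne N))]
  exact minpoly.degree_dvd (Algebra.IsIntegral.isIntegral ζ)

/-- **At most two roots of unity in a field with a real embedding.** -/
theorem le_two_of_real {N : ℕ} [NeZero N] {ζ : K} (hζ : IsPrimitiveRoot ζ N) (ι : K →+* ℝ) :
    N ≤ 2 := by
  have h := hζ.map_of_injective ι.injective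
  have h1 : |ι ζ| = 1 := (pow_eq_one_iff_of_nonneg (abs_nonneg _) (NeZero.ne N)).1
    (by rw [← abs_pow, h.pow_eq_one, abs_one])
  refine Nat.le_of_dvd two_pos (h.dvd_of_pow_eq_one 2 ?_)
  rw [← sq_abs, h1, one_pow]

/-- **The structure of the torsion over `K`**: `ℤ/m × ℤ/e`, `m ∣ e`, with full level `m`. -/
theorem exists_structure [hfin : Finite (AddCommGroup.torsion E.toAffine.Point)] :
    ∃ m e : ℕ, 0 < m ∧ m ∣ e ∧
      Nonempty (AddCommGroup.torsion E.toAffine.Point ≃+ ZMod m × ZMod e) ∧
      ∃ φ : ZMod m × ZMod m →+ E.toAffine.Point, Function.Injective φ := by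
  obtain ⟨m, hme, hcard, ⟨f⟩⟩ := FA.ReducedGroups.exists_equiv
    (G := AddCommGroup.torsion E.toAffine.Point) fun n hn => by
      have := (finite_nsmul_eq_zero (W := E) (Kb := Kc) hn.ne').to_subtype
      refine le_trans (Nat.card_le_card_of_injective
        (fun x => (⟨upK E x.1.1, ?_⟩ : {Q : (E.toAffine⁄Kc).Point | n • Q = 0}))
        fun x y h => Subtype.ext (Subtype.ext (upK_injective E (congrArg Subtype.val h)))) ?_
      · show n • upK E x.1.1 = 0
        rw [← map_nsmul, ← AddSubgroup.coe_nsmul, x.2, ZeroMemClass.coe_zero, map_zero]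
      · exact (TorGen.natCard (E := E) (Kb := Kc) hn.ne').le
  set e := AddMonoid.exponent (AddCommGroup.torsion E.toAffine.Point)
  have hm : 0 < m := Nat.pos_of_ne_zero fun h => by
    rw [h, zero_mul] at hcard
    exact absurd hcard.symm Nat.card_pos.ne'
  obtain ⟨c, hc⟩ := hme
  have hc0 : c ≠ 0 := fun h => by
    rw [hc, h, mul_zero, mul_zero] at hcard
    exact absurd hcard.symm Nat.card_pos.ne'
  -- `ℤ/m` inside `ℤ/e`
  let ι : ZMod m →+ ZMod e := ZMod.lift m ⟨(AddMonoidHom.mulLeft (c : ZMod e)).comp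
    (Int.castAddHom (ZMod e)), by
      simp only [AddMonoidHom.comp_apply, Int.coe_castAddHom, Int.cast_natCast,
        AddMonoidHom.coe_mulLeft]
      rw [← Nat.cast_mul, mul_comm, ← hc, ZMod.natCast_self]⟩
  have hι : Function.Injective ι := (ZMod.lift_injective _).2 fun s hs => by
    simp only [AddMonoidHom.comp_apply, Int.coe_castAddHom, AddMonoidHom.coe_mulLeft] at hs
    rw [← Int.cast_natCast, ← Int.cast_mul, ZMod.intCast_zmod_eq_zero_iff_dvd, hc,
      Nat.cast_mul, mul_comm (c : ℤ) s] at hs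
    rw [ZMod.intCast_zmod_eq_zero_iff_dvd]
    exact Int.dvd_of_mul_dvd_mul_right (Nat.cast_ne_zero.2 hc0) hs
  exact ⟨m, e, hm, ⟨c, hc⟩, ⟨f⟩, (AddCommGroup.torsion E.toAffine.Point).subtype.comp
    (f.symm.toAddMonoidHom.comp ((AddMonoidHom.id _).prodMap ι)),
    Subtype.val_injective.comp (f.symm.injective.comp (Function.injective_id.prodMap hι))⟩

end FA.WeilNF

end
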