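import Fermat.Agent.WeilNF.Det
import Mathlib.NumberTheory.LegendreSymbol.AddCharacter

/-!
# A Weil pairing over every number field

In generators of the points killed by `N` the pairing is `ζ` to the determinant of two coordinate
vectors; it is equivariant as the determinant of Galois is the cyclotomic character.
-/

set_option autoImplicit false
set_option linter.unusedSectionVars false

noncomputable section

namespace FA.WeilNF

open WeierstrassCurve Matrix FA.IsogenyNF
open scoped WeierstrassCurve.Affine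

universe u v

variable {K : Type u} [Field K] [NumberField K] {Kb : Type v} [Field Kb] [DecidableEq Kb]
  [Algebra K Kb] [CharZero Kb] [IsAlgClosed Kb] [Algebra.IsAlgebraic K Kb]

/-- The properties of a Weil pairing on the points killed by `N`. -/
structure IsWeilPairing (E : WeierstrassCurve K) (N : ℕ)
    (e : (E.toAffine⁄Kb).Point → (E.toAffine⁄Kb).Point → Kb) : Prop where
  pow : ∀ P Q, N • P = 0 → N • Q = 0 → e P Q ^ N = 1
  mul_left : ∀ P P' Q, N • P = 0 → N • P' = 0 → N • Q = 0 → e (P + P') Q = e P Q * e P' Q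
  mul_right : ∀ P Q Q', N • P = 0 → N • Q = 0 → N • Q' = 0 → e P (Q + Q') = e P Q * e P Q'
  self : ∀ P, N • P = 0 → e P P = 1
  nondeg : ∀ P, N • P = 0 → (∀ Q, N • Q = 0 → e P Q = 1) → P = 0
  gal : ∀ (σ : Kb ≃ₐ[K] Kb) P Q, N • P = 0 → N • Q = 0 → e (σ • P) (σ • Q) = σ (e P Q)

/-- **A Weil pairing exists.** -/
theorem exists_pairing (E : WeierstrassCurve K) [E.IsElliptic] {N : ℕ} (hN : N ≠ 0) :
    ∃ e : (E.toAffine⁄Kb).Point → (E.toAffine⁄Kb).Point → Kb, IsWeilPairing E N e := by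
  classical
  obtain ⟨P₀, Q₀, h⟩ := exists_torGen_level (E := E) (Kb := Kb) hN
  have : NeZero N := ⟨hN⟩
  have : NeZero (N : Kb) := ⟨Nat.cast_ne_zero.2 hN⟩
  obtain ⟨ζ, hζ⟩ := HasEnoughRootsOfUnity.exists_primitiveRoot Kb N
  let χ : AddChar (ZMod N) Kb := AddChar.zmodChar N hζ.pow_eq_one
  let r : (E.toAffine⁄Kb).Point → Fin 2 → ZMod N := Function.invFun h.coord
  have hr : ∀ v, r (h.coord v) = v := Function.leftInverse_invFun (h.coord_injective hN)
  refine ⟨fun P Q => χ (r P 0 * r Q 1 - r P 1 * r Q 0), ?_, ?_, ?_, ?_, ?_, ?_⟩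
  · intro P Q _ _
    rw [← AddChar.map_nsmul_eq_pow, nsmul_eq_mul, ZMod.natCast_self, zero_mul,
      AddChar.map_zero_eq_one]
  · intro P P' Q hP hP' hQ
    obtain ⟨v, rfl⟩ := h.coord_surj hP
    obtain ⟨v', rfl⟩ := h.coord_surj hP'
    rw [← AddChar.map_add_eq_mul, ← map_add, hr, hr, hr]
    simp only [Pi.add_apply]
    congr 1
    ring
  · intro P Q Q' _ hQ hQ'
    obtain ⟨v, rfl⟩ := h.coord_surj hQ
    obtain ⟨v', rfl⟩ := h.coord_surj hQ'
    rw [← AddChar.map_add_eq_mul, ← map_add, hr, hr, hr]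
    simp only [Pi.add_apply]
    congr 1
    ring
  · intro P _
    show χ (r P 0 * r P 1 - r P 1 * r P 0) = 1
    rw [mul_comm (r P 0), sub_self, AddChar.map_zero_eq_one]
  · intro P hP hall
    obtain ⟨v, rfl⟩ := h.coord_surj hP
    have hzero : ∀ x : ZMod N, χ x = 1 → x = 0 := fun x hx => by
      change ζ ^ x.val = 1 at hx
      rw [hζ.pow_eq_one_iff_dvd] at hx
      rw [← ZMod.natCast_zmod_val x, ZMod.natCast_eq_zero_iff]
      exact hx
    have h1 := hzero _ (hall _ (h.nsmul_coord (Pi.single 1 1)))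
    have h0 := hzero _ (hall _ (h.nsmul_coord (Pi.single 0 1)))
    simp [hr] at h0 h1
    rw [show v = 0 from funext fun i => by fin_cases i <;> simp [h0, h1], map_zero]
  · intro σ P Q hP hQ
    obtain ⟨v, rfl⟩ := h.coord_surj hP
    obtain ⟨w, rfl⟩ := h.coord_surj hQ
    obtain ⟨a, -, ha⟩ := hζ.eq_pow_of_pow_eq_one (ξ := σ ζ)
      (by rw [← map_pow, hζ.pow_eq_one, map_one])
    have hall : ∀ ν : Kb, ν ^ N = 1 → σ ν = ν ^ a := fun ν hν => by
      obtain ⟨i, -, rfl⟩ := hζ.eq_pow_of_pow_eq_one hν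
      rw [map_pow, ← ha, ← pow_mul, ← pow_mul, mul_comm]
    have hdet := det_rep hN h hall
    rw [h.rep_spec hN, h.rep_spec hN]
    simp only [hr]
    rw [hall _ (by rw [← AddChar.map_nsmul_eq_pow, nsmul_eq_mul, ZMod.natCast_self, zero_mul,
      AddChar.map_zero_eq_one]), ← AddChar.map_nsmul_eq_pow, nsmul_eq_mul, ← hdet]
    congr 1
    simp only [mulVec, dotProduct, Fin.sum_univ_two, det_fin_two]
    ring

end FA.WeilNF

end
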