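import Fermat.Agent.IsogenyNF.DetLevel

/-!
# The trace at a Frobenius place, with the count of kernels

At a Frobenius place prime to `N` an automorphism `σ` satisfies `σ² - t σ + q = 0` on the points
killed by `N`; and where it is the multiplication by `c` on the points killed by `g ∣ N`, `c` prime
to the residue characteristic, these `g²` points lie in the kernel of `c - π`, which has
`c² - t c + q` elements.
-/

set_option autoImplicit false
set_option linter.unusedSectionVars false

noncomputable section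

namespace FA.WeilNF

open WeierstrassCurve FA.IsogenyNF FA.Local FA.Frob FA.HasseBound
open FA.ClassNumberOne (xP yP)
open scoped WeierstrassCurve.Affine

universe u v

variable {K : Type u} [Field K] [NumberField K] {Kb : Type v} [Field Kb] [DecidableEq Kb]
  [Algebra K Kb] [CharZero Kb] [IsAlgClosed Kb] [Algebra.IsAlgebraic K Kb]
  {W : WeierstrassCurve K} [W.IsElliptic] {σ : Kb ≃ₐ[K] Kb} {N : ℕ}

/-- **The trace at a Frobenius place.** -/
theorem exists_trace (F : FrobPlace W σ N) :
    ∃ t : ℤ, (∀ P : (W.toAffine⁄Kb).Point, N • P = 0 →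
      σ • σ • P - t • σ • P + ((F.l : ℤ) ^ F.n) • P = 0) ∧
      ∀ (c : ℤ) (g : ℕ), g ≠ 0 → g ∣ N → ¬ (F.l : ℤ) ∣ c →
        (∀ P : (W.toAffine⁄Kb).Point, g • P = 0 → σ • P = c • P) →
        (g : ℤ) ^ 2 ∣ c ^ 2 - t * c + (F.l : ℤ) ^ F.n := by
  classical
  have := F.charP
  have : Fact F.l.Prime := ⟨F.prime⟩
  have := residueField_isAlgClosed F.A
  have := redCurve_isElliptic F.int F.good
  set Wk := redCurve F.A (W.baseChange Kb).toAffine F.int with hWk
  have hfixr : ∀ (x : Kb) (hx : x ∈ F.A), F.A.valuation (x ^ F.l ^ F.n - x) < 1 →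
      iterateFrobenius (Res F.A) F.l F.n (IsLocalRing.residue F.A ⟨x, hx⟩) =
        IsLocalRing.residue F.A ⟨x, hx⟩ := fun x hx h => by
    rw [iterateFrobenius_def, ← map_pow, residue_eq_iff]
    simpa using h
  have hmem : ∀ {x : Kb}, F.A.valuation x ≤ 1 → x ∈ F.A :=
    fun h => (F.A.valuation_le_one_iff _).1 h
  have hW : Wk.map (iterateFrobenius (Res F.A) F.l F.n) = Wk := by
    refine WeierstrassCurve.ext ?_ ?_ ?_ ?_ ?_
    · exact hfixr _ (hmem F.int.h₁) (F.congr_coef _ (by simp))
    · exact hfixr _ (hmem F.int.h₂) (F.congr_coef _ (by simp))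
    · exact hfixr _ (hmem F.int.h₃) (F.congr_coef _ (by simp))
    · exact hfixr _ (hmem F.int.h₄) (F.congr_coef _ (by simp))
    · exact hfixr _ (hmem F.int.h₆) (F.congr_coef _ (by simp))
  let r : (W.toAffine⁄Kb).Point →+ Wk.toAffine.Point := redHom F.int F.good
  have hinj : ∀ P : (W.toAffine⁄Kb).Point, N • P = 0 → r P = 0 → P = 0 := fun P hP hrP => by
    by_contra hne
    obtain ⟨p, hp, hpd⟩ := Nat.exists_prime_and_dvd (n := addOrderOf P)
      fun h => hne (AddMonoid.addOrderOf_eq_one_iff.1 h)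
    obtain ⟨m, hm⟩ := hpd
    have hdvd := addOrderOf_dvd_of_nsmul_eq_zero hP
    have h0 : m • P = 0 := redHom_injOn F.int F.good hp
      (F.level_of_dvd (((Dvd.intro m hm.symm)).trans hdvd))
      (by rw [← mul_nsmul', ← hm, addOrderOf_nsmul_eq_zero])
      (by show r (m • P) = 0; rw [map_nsmul, hrP, nsmul_zero])
    have hN : N ≠ 0 := fun h => by simpa [h] using F.level
    have hpos : 0 < addOrderOf P :=
      Nat.pos_of_ne_zero fun h => hN (Nat.eq_zero_of_zero_dvd (h ▸ hdvd))
    have hm0 : 0 < m := Nat.pos_of_ne_zero fun h => by rw [hm, h, mul_zero] at hpos; omega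
    have := Nat.le_of_dvd hm0 (addOrderOf_dvd_of_nsmul_eq_zero h0)
    rw [hm] at this
    exact absurd this (not_le.2 ((Nat.lt_mul_iff_one_lt_left hm0).2 hp.one_lt))
  have hcomm : ∀ P : (W.toAffine⁄Kb).Point, N • P = 0 → r (σ • P) = qEnd Wk hW (r P) := by
    intro P hP
    rcases P with _ | ⟨x, y, h⟩
    · exact (congrArg r (smul_zero σ)).trans (map_zero r) |>.trans (map_zero (qEnd Wk hW)).symm
    have hx : x ∈ F.A := by
      by_contra hx
      refine Affine.Point.some_ne_zero h (hinj _ hP ?_)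
      show redHom F.int F.good _ = 0
      rw [redHom_apply, redFun_eq_zero_iff, e1_some]
      exact not_le.1 fun h1 => hx ((F.A.valuation_le_one_iff x).1 h1)
    obtain ⟨hxc, hyc⟩ := F.congr_coord _ hP
    change F.A.valuation (σ x - x ^ F.l ^ F.n) < 1 at hxc
    change F.A.valuation (σ y - y ^ F.l ^ F.n) < 1 at hyc
    obtain ⟨h', he⟩ := smul_some (σ := σ) W h
    rw [he]
    have hy := y_mem F.int h.1 hx
    have hσx : σ x ∈ F.A := by
      have := add_mem ((F.A.valuation_le_one_iff _).1 hxc.le) (pow_mem hx (F.l ^ F.n))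
      rwa [sub_add_cancel] at this
    obtain ⟨k₁, e₁⟩ := redFun_of_mem F.int h hx
    obtain ⟨k₂, e₂⟩ := redFun_of_mem F.int h' hσx
    show redHom F.int F.good _ = qEnd Wk hW (redHom F.int F.good _)
    rw [redHom_apply, redHom_apply, e₁, e₂, qEnd, mapHom_some]
    simp only [Affine.Point.some.injEq, iterateFrobenius_def]
    refine ⟨?_, ?_⟩
    · rw [resOf, resOf, dif_pos hσx, dif_pos hx, ← map_pow, residue_eq_iff]
      simpa using hxc
    · rw [resOf, resOf, dif_pos (y_mem F.int h'.1 hσx), dif_pos hy, ← map_pow, residue_eq_iff]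
      simpa using hyc
  refine ⟨trQ Wk hW, fun P hP => hinj _ ?_ ?_, fun c g hg0 hgN hc hσ => ?_⟩
  · rw [nsmul_add, nsmul_sub, smul_comm N (trQ Wk hW), ← smul_nsmul', ← smul_nsmul',
      hP, smul_zero, smul_zero, zsmul_zero, sub_zero, zero_add, smul_comm N, hP, zsmul_zero]
  · have hσP : N • (σ • P) = 0 := by rw [← smul_nsmul', hP, smul_zero]
    rw [map_add, map_sub, map_zsmul, map_zsmul, hcomm _ hσP, hcomm P hP]
    exact qEnd_quadratic Wk hW F.pos (r P)
  -- the points killed by `g` reduce into the kernel of `c - π`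
  have hkill : ∀ P : (W.toAffine⁄Kb).Point, g • P = 0 → N • P = 0 := fun P hP => by
    obtain ⟨d, rfl⟩ := hgN
    rw [mul_comm, mul_nsmul', hP, nsmul_zero]
  let T : AddSubgroup (W.toAffine⁄Kb).Point := (nsmulAddMonoidHom g).ker
  have hT : Nat.card (T.map r) = g ^ 2 :=
    (Nat.card_image_of_injOn (f := r) (s := (T : Set (W.toAffine⁄Kb).Point))
      fun P (hP : g • P = 0) Q (hQ : g • Q = 0) h => sub_eq_zero.1 (hinj _
        (hkill _ (by rw [nsmul_sub, hP, hQ, sub_zero])) (by rw [map_sub, h, sub_self]))).trans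
      (TorGen.natCard hg0)
  have hle : T.map r ≤ (c • AddMonoidHom.id _ - qEnd Wk hW).ker := by
    rintro _ ⟨P, hP, rfl⟩
    show c • r P - qEnd Wk hW (r P) = 0
    rw [← hcomm P (hkill P hP), hσ P hP, map_zsmul, sub_self]
  have h := AddSubgroup.card_dvd_of_le hle
  rw [hT, ← Int.natCast_dvd_natCast, natCard_ker_sub_qEnd Wk hW F.pos hc, Nat.cast_pow] at h
  exact h

end FA.WeilNF

end
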